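import Fermat.Agent.MahlerClass.Classes
import Mathlib.Analysis.Calculus.Deriv.Inv
import Mathlib.Analysis.Calculus.Deriv.Polynomial
import Mathlib.NumberTheory.Transcendental.Liouville.LiouvilleWith
import Mathlib.NumberTheory.Transcendental.Liouville.Residual
import Mathlib.RingTheory.Localization.Integral

/-!
# Liouville numbers: the theorems of Erdős and Maillet
-/

set_option autoImplicit false

noncomputable section

open Polynomial Filter Asymptotics
open scoped Topology

namespace FA.LiouvilleNumbers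

theorem dense_liouville : Dense {x : ℝ | Liouville x} :=
  dense_of_mem_residual eventually_residual_liouville

/-- **Erdős**: every real is a sum of two Liouville numbers. -/
theorem exists_sum (c : ℝ) : ∃ x y : ℝ, Liouville x ∧ Liouville y ∧ x + y = c := by
  have hG : IsGδ ((fun y : ℝ => c - y) ⁻¹' {x | Liouville x}) :=
    IsGδ.setOfPred_liouville.preimage (by fun_prop)
  have hd : Dense ((fun y : ℝ => c - y) ⁻¹' {x | Liouville x}) :=
    dense_liouville.preimage (Homeomorph.subLeft c).isOpenMap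
  obtain ⟨y, hy, hcy⟩ :=
    (Dense.inter_of_Gδ IsGδ.setOfPred_liouville hG dense_liouville hd).nonempty
  exact ⟨y, c - y, hy, hcy, add_sub_cancel _ _⟩

/-- **Erdős**: every nonzero real is a product of two Liouville numbers. -/
theorem exists_prod {c : ℝ} (hc : c ≠ 0) :
    ∃ x y : ℝ, Liouville x ∧ Liouville y ∧ x * y = c := by
  set U : Set ℝ := {0}ᶜ
  have hU : IsOpen U := isOpen_compl_singleton
  have hcont : ContinuousOn (fun y : ℝ => c / y) U :=
    continuousOn_const.div continuousOn_id fun y hy => hy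
  have hinv : ∀ y : ℝ, c / (c / y) = y := fun y => div_div_cancel₀ hc
  set S : Set ℝ := {y | Liouville (c / y)} with hS
  have hG : IsGδ S := by
    have e : S = ⋂ n : ℕ, U ∩ (fun y : ℝ => c / y) ⁻¹' (⋃ (a : ℤ) (b : ℤ) (_ : 1 < b),
        Metric.ball ((a : ℝ) / b) (1 / (b : ℝ) ^ n) \ {(a : ℝ) / b}) := by
      rw [← Set.inter_iInter, ← Set.preimage_iInter, ← setOfPred_liouville_eq_iInter_iUnion]
      refine (Set.inter_eq_right.2 ?_).symm
      intro y hy h0
      have h : Liouville (c / y) := hy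
      rw [show y = 0 from h0, div_zero] at h
      exact h.irrational ⟨0, Rat.cast_zero⟩
    rw [e]
    exact .iInter_of_isOpen fun n => hcont.isOpen_inter_preimage hU
      (isOpen_iUnion fun a => isOpen_iUnion fun b => isOpen_iUnion fun _ =>
        Metric.isOpen_ball.inter isClosed_singleton.isOpen_compl)
  have hd : Dense S := by
    refine dense_iff_inter_open.2 fun V hV hV0 => ?_
    obtain ⟨v, hv, hv0⟩ := Dense.inter_open_nonempty (dense_compl_singleton (0 : ℝ)) V hV hV0
    obtain ⟨z, ⟨-, hz⟩, hzL⟩ := dense_iff_inter_open.1 dense_liouville _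
      (hcont.isOpen_inter_preimage hU hV)
      ⟨c / v, (div_ne_zero hc hv0 : c / v ≠ 0), by simpa [hinv] using hv⟩
    exact ⟨c / z, hz, by simpa [hS, hinv] using hzL⟩
  obtain ⟨y, hy, hcy⟩ :=
    (Dense.inter_of_Gδ IsGδ.setOfPred_liouville hG dense_liouville hd).nonempty
  exact ⟨y, c / y, hy, hcy, mul_div_cancel₀ _ fun h => hy.irrational ⟨0, by simp [h]⟩⟩

/-- **Every real is a sum of two `U`-numbers.** -/
theorem exists_sum_isU (c : ℝ) :
    ∃ x y : ℝ, MahlerClass.IsU x ∧ MahlerClass.IsU y ∧ x + y = c := by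
  obtain ⟨x, y, hx, hy, h⟩ := exists_sum c
  exact ⟨x, y, MahlerClass.liouville_isU hx, MahlerClass.liouville_isU hy, h⟩

/-- Homogenisation: `k ^ d P (m / k)` is an integer. -/
theorem cast_homog {P : ℤ[X]} {d : ℕ} (hd : P.natDegree ≤ d) (m : ℤ) {k : ℕ} (hk : k ≠ 0) :
    ((∑ i ∈ Finset.range (d + 1), P.coeff i * m ^ i * (k : ℤ) ^ (d - i) : ℤ) : ℝ) =
      (k : ℝ) ^ d * aeval ((m : ℝ) / k) P := by
  rw [aeval_eq_sum_range' (Nat.lt_succ_of_le hd), Finset.mul_sum, Int.cast_sum]
  refine Finset.sum_congr rfl fun i hi => ?_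
  rw [zsmul_eq_mul, div_pow, ← Nat.sub_add_cancel (Nat.lt_succ_iff.1 (Finset.mem_range.1 hi))]
  simp only [Nat.add_sub_cancel, pow_add, Int.cast_mul, Int.cast_pow, Int.cast_natCast]
  field_simp

theorem liouville_aeval_div_int {P Q : ℤ[X]} {x : ℝ} (hx : Liouville x) (hQ : aeval x Q ≠ 0)
    (hne : ∀ a b : ℤ, b ≠ 0 → C b * P ≠ C a * Q) : Liouville (aeval x P / aeval x Q) := by
  refine forall_liouvilleWith_iff.1 fun p => LiouvilleWith.mono (p := max p 1) ?_ (le_max_left _ _)
  set q := max p 1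
  have hq : 1 ≤ q := le_max_right _ _
  set d := max (max P.natDegree Q.natDegree) 1
  have hd : 1 ≤ d := le_max_right _ _
  have hPd : P.natDegree ≤ d := (le_max_left _ _).trans (le_max_left _ _)
  have hQd : Q.natDegree ≤ d := (le_max_right _ _).trans (le_max_left _ _)
  set f : ℝ → ℝ := fun y => aeval y P / aeval y Q with hf
  have hirr : ∀ r : ℚ, f x ≠ r := by
    intro r hr
    rw [hf, div_eq_iff hQ] at hr
    refine hne r.num r.den (Int.natCast_ne_zero.2 r.den_ne_zero) (sub_eq_zero.1 ?_)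
    by_contra h0
    refine hx.transcendental ⟨_, h0, ?_⟩
    rw [map_sub, map_mul, map_mul, aeval_C, aeval_C, hr, algebraMap_int_eq, eq_intCast, eq_intCast,
      Rat.cast_def]
    push_cast
    field_simp
    ring
  have hdiff : DifferentiableAt ℝ f x :=
    DifferentiableAt.fun_div P.differentiableAt_aeval Q.differentiableAt_aeval hQ
  obtain ⟨L, hL⟩ := hdiff.hasDerivAt.isBigO_sub.bound
  have hQc : ∀ᶠ y in 𝓝 x, |aeval x Q| / 2 < |aeval y Q| ∧ |aeval y Q| < 2 * |aeval x Q| := by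
    have hc : Tendsto (fun y => |aeval y Q|) (𝓝 x) (𝓝 |aeval x Q|) :=
      ((Q.continuous_aeval).abs).tendsto x
    exact (hc.eventually_const_lt (half_lt_self (abs_pos.2 hQ))).and
      (hc.eventually_lt_const (lt_mul_of_one_lt_left (abs_pos.2 hQ) one_lt_two))
  obtain ⟨δ, hδ, hnear⟩ := Metric.eventually_nhds_iff.1 (hL.and hQc)
  obtain ⟨C, hC⟩ := hx.liouvilleWith (d * q)
  have hdq : 0 < (d : ℝ) * q := by positivity
  set B := 2 * |aeval x Q|
  have hB : 0 < B := by positivity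
  refine ⟨max L 1 * C * B ^ q, frequently_atTop.2 fun K => ?_⟩
  obtain ⟨n, ⟨⟨m, hxm, hlt⟩, hn0, hnK, hnδ⟩⟩ := (hC.and_eventually
    ((eventually_gt_atTop 0).and (((tendsto_natCast_atTop_atTop (R := ℝ)).atTop_mul_const
      (show 0 < |aeval x Q| / 2 by positivity)).eventually_ge_atTop (K : ℝ) |>.and
      (((tendsto_rpow_neg_atTop hdq).comp (tendsto_natCast_atTop_atTop (R := ℝ))).const_mul
        C |>.eventually_lt_const (show C * 0 < δ by simpa using hδ))))).exists
  have hn : (0 : ℝ) < n := Nat.cast_pos.2 hn0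
  have hdist : |x - m / n| < C / (n : ℝ) ^ ((d : ℝ) * q) := hlt
  simp only [Function.comp_apply] at hnδ
  rw [Real.rpow_neg hn.le, ← div_eq_mul_inv] at hnδ
  obtain ⟨hLy, hQy1, hQy2⟩ := hnear (y := (m : ℝ) / n) (by
    rw [Real.dist_eq, abs_sub_comm]
    exact hdist.trans hnδ)
  set N : ℤ := ∑ i ∈ Finset.range (d + 1), Q.coeff i * m ^ i * (n : ℤ) ^ (d - i)
  set M : ℤ := ∑ i ∈ Finset.range (d + 1), P.coeff i * m ^ i * (n : ℤ) ^ (d - i)
  have hN : (N : ℝ) = (n : ℝ) ^ d * aeval ((m : ℝ) / n) Q := cast_homog hQd m hn0.ne'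
  have hM : (M : ℝ) = (n : ℝ) ^ d * aeval ((m : ℝ) / n) P := cast_homog hPd m hn0.ne'
  have hNabs : |(N : ℝ)| = (n : ℝ) ^ d * |aeval ((m : ℝ) / n) Q| := by
    rw [hN, abs_mul, abs_pow, Nat.abs_cast]
  have hN0 : 0 < |(N : ℝ)| := hNabs ▸ mul_pos (pow_pos hn d)
    ((half_pos (abs_pos.2 hQ)).trans hQy1)
  have hcast : (N.natAbs : ℝ) = |(N : ℝ)| := by rw [Nat.cast_natAbs, Int.cast_abs]
  have hval : ((N.sign * M : ℤ) : ℝ) / (N.natAbs : ℝ) = f ((m : ℝ) / n) := by
    have h1 : f ((m : ℝ) / n) = (M : ℝ) / N := by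
      rw [hf, hM, hN, mul_div_mul_left _ _ (pow_pos hn d).ne']
    rw [h1, hcast]
    rcases lt_trichotomy N 0 with h | h | h
    · rw [Int.sign_eq_neg_one_of_neg h, abs_of_neg (Int.cast_lt_zero.2 h)]
      push_cast
      rw [neg_one_mul, neg_div_neg_eq]
    · simp [h] at hN0
    · rw [Int.sign_eq_one_of_pos h, abs_of_pos (Int.cast_pos.2 h), one_mul]
  refine ⟨N.natAbs, ?_, N.sign * M, ?_, ?_⟩
  · have h : (K : ℝ) ≤ (N.natAbs : ℝ) := by
      rw [hcast, hNabs]
      refine hnK.trans (mul_le_mul ?_ hQy1.le (by positivity) (by positivity))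
      exact le_self_pow₀ (Nat.one_le_cast.2 hn0) (by omega)
    exact_mod_cast h
  · intro h
    have e : f x = ((N.sign * M : ℤ) : ℝ) / (N.natAbs : ℝ) := h
    exact hirr ((N.sign * M : ℤ) / (N.natAbs : ℚ)) (by rw [e]; push_cast; rfl)
  · rw [hval, abs_sub_comm, hcast]
    rw [Real.norm_eq_abs, Real.norm_eq_abs, abs_sub_comm ((m : ℝ) / n)] at hLy
    have hC0 : 0 < C := by
      have := (abs_nonneg _).trans_lt hdist
      rcases lt_trichotomy C 0 with h | h | h
      · exact absurd (div_neg_of_neg_of_pos h (Real.rpow_pos_of_pos hn _)) this.le.not_gt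
      · simp [h] at this
      · exact h
    have hNle : |(N : ℝ)| ^ q ≤ B ^ q * (n : ℝ) ^ ((d : ℝ) * q) := by
      rw [Real.rpow_mul hn.le, Real.rpow_natCast, ← Real.mul_rpow hB.le (by positivity), mul_comm B]
      refine Real.rpow_le_rpow (abs_nonneg _) ?_ (by linarith)
      rw [hNabs]
      exact mul_le_mul_of_nonneg_left hQy2.le (by positivity)
    refine hLy.trans_lt ?_
    refine (mul_le_mul_of_nonneg_right (le_max_left L 1) (abs_nonneg _)).trans_lt
      ((mul_lt_mul_of_pos_left hdist (by positivity)).trans_le ?_)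
    rw [mul_div_assoc', div_le_div_iff₀ (Real.rpow_pos_of_pos hn _) (Real.rpow_pos_of_pos hN0 _),
      mul_assoc (max L 1 * C)]
    exact mul_le_mul_of_nonneg_left hNle (by positivity)

/-- **Maillet's theorem.** -/
theorem liouville_aeval_div {P Q : ℚ[X]} {x : ℝ} (hx : Liouville x) (hQ : aeval x Q ≠ 0)
    (hne : ∀ c : ℚ, P ≠ Polynomial.C c * Q) : Liouville (aeval x P / aeval x Q) := by
  obtain ⟨u, hu, hP⟩ := IsLocalization.integerNormalization_spec (nonZeroDivisors ℤ) P
  obtain ⟨v, hv, hQ'⟩ := IsLocalization.integerNormalization_spec (nonZeroDivisors ℤ) Q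
  set P' := IsLocalization.integerNormalization (nonZeroDivisors ℤ) P
  set Q' := IsLocalization.integerNormalization (nonZeroDivisors ℤ) Q
  have hu0 : u ≠ 0 := nonZeroDivisors.ne_zero hu
  have hv0 : v ≠ 0 := nonZeroDivisors.ne_zero hv
  have hPx : aeval x P' = (u : ℝ) * aeval x P := by
    rw [← aeval_map_algebraMap ℚ, hP, map_zsmul, zsmul_eq_mul]
  have hQx : aeval x Q' = (v : ℝ) * aeval x Q := by
    rw [← aeval_map_algebraMap ℚ, hQ', map_zsmul, zsmul_eq_mul]
  have hP'Q' := liouville_aeval_div_int hx (P := P') (Q := Q')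
    (by rw [hQx]; exact mul_ne_zero (Int.cast_ne_zero.2 hv0) hQ) fun a b hb h => by
      have h' := congrArg (Polynomial.map (algebraMap ℤ ℚ)) h
      rw [Polynomial.map_mul, Polynomial.map_mul, Polynomial.map_C, Polynomial.map_C, hP, hQ',
        zsmul_eq_mul, zsmul_eq_mul, algebraMap_int_eq, eq_intCast, eq_intCast,
        ← map_intCast (Polynomial.C (R := ℚ)) u, ← map_intCast (Polynomial.C (R := ℚ)) v,
        ← mul_assoc, ← mul_assoc, ← Polynomial.C_mul, ← Polynomial.C_mul] at h'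
      refine hne (((b : ℚ) * u)⁻¹ * ((a : ℚ) * v)) ?_
      have hbu : (b : ℚ) * u ≠ 0 := mul_ne_zero (Int.cast_ne_zero.2 hb) (Int.cast_ne_zero.2 hu0)
      rw [Polynomial.C_mul (a := ((b : ℚ) * u)⁻¹), mul_assoc, ← h', ← mul_assoc,
        ← Polynomial.C_mul, inv_mul_cancel₀ hbu, Polynomial.C_1, one_mul]
  have e : aeval x P / aeval x Q = (((v : ℚ) / u : ℚ) : ℝ) * (aeval x P' / aeval x Q') := by
    have : (u : ℝ) ≠ 0 := Int.cast_ne_zero.2 hu0
    have : (v : ℝ) ≠ 0 := Int.cast_ne_zero.2 hv0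
    rw [hPx, hQx]
    push_cast
    field_simp
  rw [e, ← forall_liouvilleWith_iff]
  exact fun p => (LiouvilleWith.rat_mul_iff
    (div_ne_zero (Int.cast_ne_zero.2 hv0) (Int.cast_ne_zero.2 hu0))).2 (hP'Q'.liouvilleWith p)

end FA.LiouvilleNumbers
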